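import Fermat.Agent.Reduction.PlaceReduction
import Fermat.Agent.Reduction.AuxPullback
import Fermat.Agent.EichlerShimura.CorrespondenceComm
import Fermat.Agent.Curve.Functorial
import Mathlib.RingTheory.Norm.Defs
import Mathlib.LinearAlgebra.Matrix.Basis

/-!
# Gauss reductions and a finite map of the same degree on both fibres

If a reduction at the upper field has a compatible map of places `r`, pushing a divisor down and
pulling it back commutes with `r` in degree zero: the norm of a function reduces to the norm of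
its reduction.
-/

set_option autoImplicit false

noncomputable section

namespace Fermat.Agent.Semistable.AllLevels

open AlgebraicCurve Fermat.Agent.Reduction Fermat.Agent.Curve Fermat.Agent.EichlerShimura

variable {K : Type*} [Field K] {k : Type*} [Field k] {A : ValuationSubring K} {π : A →+* k}
variable {F F' Fb Fb' : Type*} [Field F] [Field F'] [Field Fb] [Field Fb']
  [Algebra K F] [Algebra K F'] [Algebra k Fb] [Algebra k Fb']

theorem ratio_mem (c d : K) (h : A.valuation c ≤ A.valuation d) : c / d ∈ A := by
  rw [← A.valuation_le_one_iff, map_div₀]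
  exact div_le_one_of_le₀ h zero_le

/-- A finite family can be scaled to an integral one with a non-zero reduction. -/
theorem exists_smul_family (G : GaussData π F Fb) {ι : Type*} [Fintype ι] {f : ι → F}
    (hf : f ≠ 0) :
    ∃ c : K, c ≠ 0 ∧ ∃ g : ι → Fb, g ≠ 0 ∧ ∀ i, (c • f i, g i) ∈ G.graph := by
  classical
  have hne : (Finset.univ.filter fun i => f i ≠ 0).Nonempty := by
    obtain ⟨i, hi⟩ := Function.ne_iff.1 hf
    exact ⟨i, by simpa using hi⟩
  choose c hc g hg hcg using fun i : {i // f i ≠ 0} => G.exists_smul i.2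
  obtain ⟨i₀, -, hi₀⟩ := Finset.exists_min_image (Finset.univ : Finset {i // f i ≠ 0})
    (fun i => A.valuation (c i))
    ⟨⟨hne.choose, (Finset.mem_filter.1 hne.choose_spec).2⟩, Finset.mem_univ _⟩
  refine ⟨c i₀, hc i₀, fun i => if h : f i ≠ 0 then
    π ⟨c i₀ / c ⟨i, h⟩, ratio_mem _ _ (hi₀ _ (Finset.mem_univ _))⟩ • g ⟨i, h⟩ else 0,
    fun h0 => ?_, fun i => ?_⟩
  · have h1 := congrFun h0 i₀.1
    simp only [dif_pos i₀.2, Pi.zero_apply] at h1
    have h2 : (⟨c i₀ / c i₀, ratio_mem _ _ le_rfl⟩ : A) = 1 :=
      Subtype.ext (div_self (hc i₀))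
    rw [h2, map_one, one_smul] at h1
    exact hg i₀ h1
  · by_cases h : f i ≠ 0
    · have h1 := G.smul_mem ⟨c i₀ / c ⟨i, h⟩,
        ratio_mem _ _ (hi₀ _ (Finset.mem_univ _))⟩ (hcg ⟨i, h⟩)
      rw [smul_smul, div_mul_cancel₀ _ (hc _)] at h1
      simpa [dif_pos h] using h1
    · rw [show (c i₀ • f i) = 0 by rw [not_not.1 h, smul_zero]]
      simp only [dif_neg h]
      exact G.graph.zero_mem

/-- The ring of integral functions. -/
def integral (G : GaussData π F Fb) : Subring F := G.graph.map (RingHom.fst F Fb)

/-- The reduction of integral functions. -/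
def redHom (G : GaussData π F Fb) : integral G →+* Fb where
  toFun f := (Subring.mem_map.1 f.2).choose.2
  map_one' := by
    refine G.eq_of_mem (f := 1) ?_ G.graph.one_mem
    have h := (Subring.mem_map.1 (1 : integral G).2).choose_spec
    convert h.1 using 1
    exact Prod.ext h.2.symm rfl
  map_zero' := by
    refine G.eq_of_mem (f := 0) ?_ G.graph.zero_mem
    have h := (Subring.mem_map.1 (0 : integral G).2).choose_spec
    convert h.1 using 1
    exact Prod.ext h.2.symm rfl
  map_mul' a b := by
    have h := (Subring.mem_map.1 (a * b).2).choose_spec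
    have ha := (Subring.mem_map.1 a.2).choose_spec
    have hb := (Subring.mem_map.1 b.2).choose_spec
    refine G.eq_of_mem (f := (a * b : integral G).1) ?_ ?_
    · convert h.1 using 1
      exact Prod.ext h.2.symm rfl
    · convert G.graph.mul_mem ha.1 hb.1 using 1
      exact Prod.ext (congrArg₂ (· * ·) ha.2.symm hb.2.symm) rfl
  map_add' a b := by
    have h := (Subring.mem_map.1 (a + b).2).choose_spec
    have ha := (Subring.mem_map.1 a.2).choose_spec
    have hb := (Subring.mem_map.1 b.2).choose_spec
    refine G.eq_of_mem (f := (a + b : integral G).1) ?_ ?_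
    · convert h.1 using 1
      exact Prod.ext h.2.symm rfl
    · convert G.graph.add_mem ha.1 hb.1 using 1
      exact Prod.ext (congrArg₂ (· + ·) ha.2.symm hb.2.symm) rfl

theorem mk_redHom_mem (G : GaussData π F Fb) (f : integral G) :
    ((f : F), redHom G f) ∈ G.graph := by
  have h := (Subring.mem_map.1 f.2).choose_spec
  convert h.1 using 1
  exact Prod.ext h.2.symm rfl

variable {G : GaussData π F Fb} {G' : GaussData π F' Fb'} {α : F →ₐ[K] F'} {αb : Fb →ₐ[k] Fb'}

/-- **The norm of a reduction is the reduction of the norm.** -/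
theorem norm_mem_graph (hα : ∀ f g, (f, g) ∈ G.graph → (α f, αb g) ∈ G'.graph)
    (hfin : FiniteAlong K α) (hfinb : FiniteAlong k αb)
    (hd : finrankAlong K α = finrankAlong k αb) {h : F'} {hb : Fb'} (hh : (h, hb) ∈ G'.graph) :
    (normAlong α h, normAlong αb hb) ∈ G.graph := by
  classical
  let algα : Algebra F F' := algebraAlong α
  let algβ : Algebra Fb Fb' := algebraAlong αb
  have : Module.Finite F F' := hfin
  have : Module.Finite Fb Fb' := hfinb
  let eb := Module.finBasis Fb Fb'
  choose e he using fun i => G'.exists_lift (eb i)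
  have sum_mem : ∀ (f : Fin (Module.finrank Fb Fb') → F) (g : Fin (Module.finrank Fb Fb') → Fb),
      (∀ i, (f i, g i) ∈ G.graph) → (∑ i, f i • e i, ∑ i, g i • eb i) ∈ G'.graph := by
    intro f g hfg
    rw [show (∑ i, f i • e i, ∑ i, g i • eb i) = ∑ i, (f i • e i, g i • eb i) from
      Prod.ext (by simp [Prod.fst_sum]) (by simp [Prod.snd_sum])]
    exact sum_mem fun i _ => by
      rw [Algebra.smul_def, Algebra.smul_def]
      exact G'.graph.mul_mem (hα _ _ (hfg i)) (he i)
  have hind : LinearIndependent F e := by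
    rw [Fintype.linearIndependent_iff]
    intro f hf
    by_contra hne
    push Not at hne
    obtain ⟨i, hi⟩ := hne
    obtain ⟨c, -, g, hg, hcg⟩ := exists_smul_family G (f := f) (fun h0 => hi (congrFun h0 i))
    have h1 := sum_mem _ g hcg
    rw [show ∑ i, (c • f i) • e i = α (algebraMap K F c) * ∑ i, f i • e i by
      rw [Finset.mul_sum]
      refine Finset.sum_congr rfl fun i _ => ?_
      rw [Algebra.smul_def, Algebra.smul_def (f i), Algebra.smul_def c, map_mul, mul_assoc]
      rfl, hf, mul_zero] at h1
    exact hg (funext (Fintype.linearIndependent_iff.1 eb.linearIndependent g (G'.unique _ h1)))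
  have hcard : Fintype.card (Fin (Module.finrank Fb Fb')) = Module.finrank F F' :=
    (Fintype.card_fin _).trans hd.symm
  have : Nonempty (Fin (Module.finrank Fb Fb')) := ⟨⟨0, Module.finrank_pos⟩⟩
  let b := basisOfLinearIndependentOfCardEqFinrank hind hcard
  have hbe : ∀ i, b i = e i := fun i => by simp [b]
  -- the matrix of `h` is integral
  have hint : ∀ j, ∃ g : Fin (Module.finrank Fb Fb') → Fb,
      ∀ i, (b.repr (h * b j) i, g i) ∈ G.graph := by
    intro j
    by_cases h0 : (fun i => b.repr (h * b j) i) = 0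
    · exact ⟨0, fun i => by rw [congrFun h0 i]; exact G.graph.zero_mem⟩
    obtain ⟨c, hc, g, hg, hcg⟩ := exists_smul_family G h0
    by_cases hcA : c⁻¹ ∈ A
    · refine ⟨fun i => π ⟨c⁻¹, hcA⟩ • g i, fun i => ?_⟩
      have := G.smul_mem ⟨c⁻¹, hcA⟩ (hcg i)
      rwa [smul_smul, inv_mul_cancel₀ hc, one_smul] at this
    · exfalso
      have hcA' : c ∈ A := (A.mem_or_inv_mem c).resolve_right hcA
      have h1 := sum_mem _ g hcg
      have h2 : ∑ i, (c • b.repr (h * b j) i) • e i = c • (h * e j) := by
        rw [show h * e j = ∑ i, b.repr (h * b j) i • b i by rw [b.sum_repr, hbe], Finset.smul_sum]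
        refine Finset.sum_congr rfl fun i _ => ?_
        rw [hbe i]
        simp only [Algebra.smul_def, map_mul]
        rw [mul_assoc, show algebraMap F F' (algebraMap K F c) = algebraMap K F' c from α.commutes c]
      rw [h2] at h1
      have h3 := G'.eq_of_mem h1 (G'.smul_mem ⟨c, hcA'⟩ (G'.graph.mul_mem hh (he j)))
      rw [G'.residue_eq_zero ⟨c, hcA'⟩ hcA, zero_smul] at h3
      exact hg (funext (Fintype.linearIndependent_iff.1 eb.linearIndependent g h3))
  choose g hg using hint
  have hrepr : ∀ i j, eb.repr (hb * eb j) i = g j i := by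
    intro i j
    have h1 := sum_mem _ (g j) (hg j)
    rw [show ∑ i, b.repr (h * b j) i • e i = h * b j by
      conv_rhs => rw [← b.sum_repr (h * b j)]
      simp only [hbe], hbe] at h1
    rw [← G'.eq_of_mem h1 (G'.graph.mul_mem hh (he j)), eb.repr_sum_self]
  let C : Matrix (Fin (Module.finrank Fb Fb')) (Fin (Module.finrank Fb Fb')) (integral G) :=
    Matrix.of fun i j => ⟨b.repr (h * b j) i, Subring.mem_map.2 ⟨_, hg j i, rfl⟩⟩
  have hC : C.map (redHom G) = Algebra.leftMulMatrix eb hb := by
    ext i j
    rw [Algebra.leftMulMatrix_eq_repr_mul, hrepr, Matrix.map_apply]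
    exact G.eq_of_mem (mk_redHom_mem G (C i j)) (hg j i)
  have hC' : C.map (integral G).subtype = Algebra.leftMulMatrix b h := by
    ext i j
    rw [Algebra.leftMulMatrix_eq_repr_mul, Matrix.map_apply]
    rfl
  have key := mk_redHom_mem G C.det
  rw [show (normAlong α h : F) = Algebra.norm F h from rfl,
    show (normAlong αb hb : Fb) = Algebra.norm Fb hb from rfl, Algebra.norm_eq_matrix_det b,
    Algebra.norm_eq_matrix_det eb, ← hC, ← hC']
  have e1 : (C.map (integral G).subtype).det = ((C.det : integral G) : F) :=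
    ((integral G).subtype.map_det C).symm
  have e2 : (C.map (redHom G)).det = redHom G C.det := ((redHom G).map_det C).symm
  rwa [e1, e2]

/-- **Push-pull commutes with the reduction of divisors of degree zero.** -/
theorem mapDomain_pull_push [IsAlgClosed K] [IsAlgClosed k] [IsFunctionField1 K F]
    [IsFunctionField1 K F'] [IsFunctionField1 k Fb] [IsFunctionField1 k Fb']
    (hα : ∀ f g, (f, g) ∈ G.graph → (α f, αb g) ∈ G'.graph)
    (hd : finrankAlong K α = finrankAlong k αb) {r : Place K F' → Place k Fb'}
    (hr : G'.PlaceCompat r) {D : Divisor K F'} (hD : Divisor.degree D = 0) :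
    Finsupp.mapDomain r (Divisor.pullbackAlong α (isIntegralAlong α)
        (Divisor.pushforwardAlong α (isIntegralAlong α) D)) =
      Divisor.pullbackAlong αb (isIntegralAlong αb)
        (Divisor.pushforwardAlong αb (isIntegralAlong αb) (Finsupp.mapDomain r D)) := by
  classical
  set δ₁ : Divisor K F' →+ Divisor k Fb' := (Finsupp.mapDomain.addMonoidHom r).comp
    ((Divisor.pullbackAlong α (isIntegralAlong α)).comp
      (Divisor.pushforwardAlong α (isIntegralAlong α)))
  set δ₂ : Divisor K F' →+ Divisor k Fb' := ((Divisor.pullbackAlong αb (isIntegralAlong αb)).comp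
    (Divisor.pushforwardAlong αb (isIntegralAlong αb))).comp (Finsupp.mapDomain.addMonoidHom r)
  show δ₁ D = δ₂ D
  refine hom_ext_of_degree_eq_zero (fun P => one_le_deg P) weakRiemann δ₁ δ₂ (fun E hE => ?_)
    (fun P Q => ?_) (M := (finrankAlong k αb : ℤ)) (fun P Q => ?_) hD
  · obtain ⟨f, hf, hE⟩ := Divisor.mem_principal.1 hE
    obtain ⟨c, hc, g, hg, hcg⟩ := G'.exists_smul hf
    have hne : c • f ≠ 0 := G'.ne_zero_of_mem hcg hg
    have hE' : ∀ P, E P = P.ord (c • f) := fun P => by
      rw [hE, Algebra.smul_def, P.ord_mul ((map_ne_zero _).2 hc) hf, ord_algebraMap, zero_add]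
    have hn := norm_mem_graph hα (finiteAlong α) (finiteAlong αb) hd hcg
    have hnb : normAlong αb g ≠ 0 := normAlong_ne_zero (finiteAlong αb) hg
    ext Q
    show Finsupp.mapDomain r (Divisor.pullbackAlong α (isIntegralAlong α)
        (Divisor.pushforwardAlong α (isIntegralAlong α) E)) Q =
      Divisor.pullbackAlong αb (isIntegralAlong αb) (Divisor.pushforwardAlong αb
        (isIntegralAlong αb) (Finsupp.mapDomain r E)) Q
    rw [hr _ _ (hα _ _ hn) ((map_ne_zero αb).2 hnb) _ (pullbackAlong_apply_eq_ord α (isIntegralAlong α)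
        (pushforwardAlong_eq_ord (isIntegralAlong α) (finiteAlong α) (normFormulaAlong α _) hne hE')) Q,
      pullbackAlong_apply_eq_ord αb (isIntegralAlong αb)
        (pushforwardAlong_eq_ord (isIntegralAlong αb) (finiteAlong αb)
        (normFormulaAlong αb _) hg fun Q' => hr _ _ hcg hg E hE' Q') Q]
  · show 0 ≤ Finsupp.mapDomain r (Divisor.pullbackAlong α (isIntegralAlong α)
      (Divisor.pushforwardAlong α (isIntegralAlong α) (Finsupp.single P 1))) Q
    refine Finsupp.mapDomain_nonneg (fun w => ?_) Q
    rw [Finsupp.coe_zero, Pi.zero_apply, Divisor.pullbackAlong_apply]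
    refine mul_nonneg (Int.natCast_nonneg _) ?_
    rw [Divisor.pushforwardAlong_single]
    exact Finsupp.single_nonneg.2 (by positivity) _
  · show Divisor.pullbackAlong αb (isIntegralAlong αb) (Divisor.pushforwardAlong αb
      (isIntegralAlong αb) (Finsupp.mapDomain r (Finsupp.single P 1))) Q ≤ _
    rw [Finsupp.mapDomain_single, Divisor.pushforwardAlong_single]
    have h1 : Place.inertiaDegAlong αb (isIntegralAlong αb) (r P) = 1 :=
      inertiaDegAlong_eq_one _ _ _
    rw [h1, Nat.cast_one, mul_one]
    exact pullbackAlong_single_le _ _ _ Q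

end Fermat.Agent.Semistable.AllLevels
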