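import Fermat.Agent.Semistable.AllLevels.GaussNorm
import Fermat.Agent.BadPrime.Pullback
import Fermat.Agent.Reduction.TorsionAux
import Fermat.Agent.Reduction.Inputs
import Fermat.Agent.S27
import Fermat.Agent.TwoAdic.ClassNumber.ModularIsFrob
import Fermat.Agent.TwoAdic.ClassNumber.Bound

/-!
# The genus of `X₀(N)` does not drop at any prime `ℓ ∤ N`

No auxiliary factor at `ℓ = 2, 3`: torsion of `J₀(N)` prime to `ℓ` injects into the class group of
the special fibre of level `N` (pull back to the auxiliary level, reduce, push down), and that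
group has at most `p ^ (2 ḡ)` classes killed by `p`.
-/

set_option autoImplicit false
set_option synthInstance.maxHeartbeats 400000

noncomputable section

namespace Fermat.Agent.Semistable.AllLevels

open AlgebraicCurve ModularCurve IsLocalRing Fermat.Agent.Reduction Fermat.Agent.Curve
  Fermat.Agent.BadPrime
open scoped IntermediateField

local notation "Qb" => AlgebraicClosure ℚ

variable (N : ℕ) [NeZero N] {ℓ : ℕ} [Fact ℓ.Prime] (hℓN : ¬ ℓ ∣ N)
  (A : ValuationSubring Qb) (hA : A.LiesOverPrime ℓ)

/-- Inclusion of the levels is compatible with the modular graphs. -/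
theorem modGraph_alpha {k : Type*} [Field k] (π : A →+* k) (t : ℕ) [NeZero t]
    (f : modularFunctionFieldBar N) (g : modularFunctionFieldFullC k N)
    (h : (f, g) ∈ modGraph π N) :
    (heckeAlphaBar Qb N t f, alphaRes k N t g) ∈ modGraph π (N * t) := by
  obtain ⟨a, b, hb, h1, h2⟩ := h
  exact ⟨a, b, hb, by rw [← h1, coe_heckeAlphaBar], h2⟩

include hℓN hA in
/-- The covering to the auxiliary level has the same degree on the special fibre. -/
theorem finrankAlong_alphaRes :
    finrankAlong Qb (heckeAlphaBar Qb N (auxFactor N ℓ)) =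
      finrankAlong (ResidueField A) (alphaRes (ResidueField A) N (auxFactor N ℓ)) := by
  have h1 := finrankAlong_eq_div_of_apply_eq (heckeAlphaBar Qb N (auxFactor N ℓ))
    (x := jBar N) (y := jBar (N * auxFactor N ℓ)) (Subtype.ext rfl)
  have h2 := finrankAlong_eq_div_of_apply_eq (alphaRes (ResidueField A) N (auxFactor N ℓ))
    (x := jRes _ N) (y := jRes _ (N * auxFactor N ℓ)) (Subtype.ext rfl)
  rw [finrank_jRes N hℓN A hA,
    finrank_jRes (N * auxFactor N ℓ) (not_dvd_mul_auxFactor N hℓN) A hA, ← h1] at h2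
  refine (Nat.eq_of_mul_eq_mul_left ?_ h2).symm
  rw [finrank_jBar]
  exact Nat.pos_of_ne_zero Subgroup.FiniteIndex.index_ne_zero

include hℓN hA in
/-- A bound `#J₀(N)[p] ≤ #Pic⁰(X̄₀(N))[p]` for `p ≠ ℓ`. -/
theorem natCard_torsion_le_residue {p : ℕ} [Fact p.Prime] (hpℓ : p ≠ ℓ)
    (hfin : Finite (Pic0.torsion (ResidueField A)
      (modularFunctionFieldFullC (ResidueField A) N) p)) :
    Nat.card (Pic0.torsion Qb (modularFunctionFieldBar N) p) ≤
      Nat.card (Pic0.torsion (ResidueField A) (modularFunctionFieldFullC (ResidueField A) N) p) := by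
  have : IsAlgClosed (ResidueField A) := EC.isAlgClosed_residueField A
  set t := auxFactor N ℓ
  have hℓM : ¬ ℓ ∣ N * t := not_dvd_mul_auxFactor N hℓN
  obtain ⟨r, hrc, hrM, -⟩ := exists_placeReduction_aux N hℓN A hA
  set α := heckeAlphaBar Qb N t
  set αb := alphaRes (ResidueField A) N t
  let Ψ : JZero N →+ JZeroC (ResidueField A) N :=
    (pic0Push αb (isIntegralAlong αb) (finiteAlong αb) (normFormulaAlong αb _)).comp
      ((reductionModL A (N * t)).comp
        (pic0Pull α (isIntegralAlong α) (fundamentalIdentityAlong α _)))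
  refine Nat.card_le_card_of_injective
    (fun x => ⟨Ψ x.1, Pic0.mem_torsion.2 (by rw [← map_zsmul, Pic0.mem_torsion.1 x.2, map_zero])⟩)
    fun x y hxy => ?_
  have hsub : Ψ (x.1 - y.1) = 0 := by
    rw [map_sub, sub_eq_zero]; exact congrArg Subtype.val hxy
  refine Subtype.ext (sub_eq_zero.1 ?_)
  have hp0 : p • (x.1 - y.1) = 0 := by
    rw [← natCast_zsmul, zsmul_sub, Pic0.mem_torsion.1 x.2, Pic0.mem_torsion.1 y.2, sub_zero]
  generalize x.1 - y.1 = z at hsub hp0 ⊢
  obtain ⟨D, rfl⟩ := Pic0.mk_surjective z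
  have hred : reductionModL A (N * t) (pic0Pull α (isIntegralAlong α)
      (fundamentalIdentityAlong α _) (Pic0.mk D)) =
      Pic0.mk (reductionDegZeroAlong r hrM.1 (degZeroPull α (isIntegralAlong α)
        (fundamentalIdentityAlong α _) D)) :=
    reductionAlong_mk_of_isPlaceReduction (fun P => one_le_deg P) weakRiemann hrM
      (principalGeneratedByIntegral (N * t) hℓM A hA) _
  change pic0Push αb (isIntegralAlong αb) (finiteAlong αb) (normFormulaAlong αb _)
    (reductionModL A (N * t) (pic0Pull α (isIntegralAlong α)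
      (fundamentalIdentityAlong α _) (Pic0.mk D))) = 0 at hsub
  rw [hred] at hsub
  have hprin := Divisor.isPrincipal_pullbackAlong αb (isIntegralAlong αb)
    (Divisor.mem_principal.1 (pushforwardAlong_mem_principal _ _ _ _ hsub))
  rw [coe_reductionDegZeroAlong, coe_degZeroPull,
    ← mapDomain_pull_push (G := gaussDataX0 N hℓN A hA)
      (G' := gaussDataX0 (N * t) hℓM A hA) (modGraph_alpha N A _ t)
      (finrankAlong_alphaRes N hℓN A hA) hrc
      (by rw [Divisor.degree_pullbackAlong α _ (fundamentalIdentityAlong α _), D.2, mul_zero]),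
    Curve.pushforwardAlong_pullbackAlong α, natCast_zsmul, ← AddSubgroupClass.coe_nsmul] at hprin
  set d := finrankAlong Qb α with hd
  have hdD : Pic0.mk (d • D) = d • Pic0.mk D := map_nsmul (QuotientAddGroup.mk' _) _ D
  have hm : ¬ ℓ ∣ p := fun h => hpℓ
    ((Nat.prime_dvd_prime_iff_eq Fact.out Fact.out).1 h).symm
  have h0 := eq_zero_of_mapDomain_pullback_isPrincipal N hℓN A hA (isIntegralAlong α) hrM hm
    (d • D) (by rw [hdD, smul_comm, hp0, smul_zero]) hprin
  obtain ⟨e, he⟩ := index_mul_auxFactor N (ℓ := ℓ)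
  have hde : d = ℓ ^ e := by
    have h := finrankAlong_heckeAlphaBar_mul N t
    rw [he, mul_comm (ℓ ^ e)] at h
    exact Nat.eq_of_mul_eq_mul_left (Nat.pos_of_ne_zero Subgroup.FiniteIndex.index_ne_zero) h
  rw [hdD, hde] at h0
  exact AddMonoid.addOrderOf_eq_one_iff.mp (Nat.eq_one_of_dvd_coprimes
    (((Fact.out : ℓ.Prime).coprime_iff_not_dvd.mpr hm).pow_left e)
    (addOrderOf_dvd_of_nsmul_eq_zero h0) (addOrderOf_dvd_of_nsmul_eq_zero hp0))

open TwoAdic.ClassNumber in
include hℓN hA in
/-- **The genus does not drop at a prime not dividing the level.** -/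
theorem genusFF_le_modL :
    genusFF Qb (modularFunctionFieldBar N) ≤
      genusFF (ResidueField A) (modularFunctionFieldFullC (ResidueField A) N) := by
  have : IsAlgClosed (ResidueField A) := EC.isAlgClosed_residueField A
  have : CharP (ResidueField A) ℓ := EC.charP_residueField A Fact.out hA
  obtain ⟨p, hp, hpℓ⟩ : ∃ p : ℕ, p.Prime ∧ p ≠ ℓ := by
    by_cases h : ℓ = 2
    · exact ⟨3, Nat.prime_three, by omega⟩
    · exact ⟨2, Nat.prime_two, fun h' => h h'.symm⟩
  have : Fact p.Prime := ⟨hp⟩
  obtain ⟨g, hg⟩ := exists_isFrob_residueField A hA N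
  have hb := hg.natCard_torsion_le hp 1
  rw [pow_one, mul_one] at hb
  have hchar := Fermat.Agent.S27.result Qb (modularFunctionFieldBar N) p 1
  rw [pow_one, mul_one] at hchar
  have h := (natCard_torsion_le_residue N hℓN A hA hpℓ hb.1).trans hb.2
  rw [hchar] at h
  have := (Nat.pow_le_pow_iff_right hp.one_lt).1 h
  omega

include hℓN hA in
/-- The reduction inputs exist at every level prime to `ℓ`. -/
theorem reductionInputsModL : ReductionInputsModL A N :=
  reductionInputsModL_of_genus_le N hℓN A hA (genusFF_le_modL N hℓN A hA)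

end Fermat.Agent.Semistable.AllLevels
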